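import Fermat.Agent.Ribet.H375.ELOCOrd
import Fermat.Agent.Ribet.H109.Line
import Fermat.Agent.Ribet.H104.WForms
import Fermat.Agent.Ribet.H584.Places

/-!
# RIBET / WALL-p: ELOC-ord (good reduction) is CLOSED; the S40 wall from the filtration package

* `elocOrdGoodIrr : ELOCOrdGoodIrrStatement` — unconditional
  (ss: helper187; LINE: helper109; PEU: helper375 with (F), (U) of helper215).
* `ordCaseGood_of_filtration : AtPFiltrationStatement → OrdCaseGoodStatement`
* `wallGood_of_atPFiltration : AtPFiltrationStatement → WallGoodStatement`
  (NMT-W, NE-W: helper104; Places: helper584).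

So the wall of S40 is exactly `H944.Wall.AtPFiltrationStatement`.
-/

set_option autoImplicit false

namespace Fermat.Agent.Ribet.H375

open Fermat.Agent.Ribet.Spec Fermat.Agent.Ribet.H944.Wall

/-- **ELOC-ord, good reduction**: unconditional. -/
theorem elocOrdGoodIrr : ELOCOrdGoodIrrStatement :=
  elocOrdGoodIrr_of_line Fermat.Agent.Ribet.H109.elocLine

/-- The ordinary case of the S40 wall from the filtration package alone. -/
theorem ordCaseGood_of_filtration (hF : AtPFiltrationStatement) : OrdCaseGoodStatement :=
  ordCaseGood_of_line hF Fermat.Agent.Ribet.H109.elocLine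
    Fermat.Agent.Ribet.H104.notMultTypeW Fermat.Agent.Ribet.H104.nonEisW

/-- **The S40 wall from the filtration package alone.** -/
theorem wallGood_of_atPFiltration (hF : AtPFiltrationStatement) : WallGoodStatement :=
  wallGood_of Fermat.Agent.Ribet.H584.places (newKernel_of_filtration hF)
    (ordCaseGood_of_filtration hF)

end Fermat.Agent.Ribet.H375
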