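import Fermat.Agent.Ribet.H375.PeuGlue
import Fermat.Agent.Ribet.H187.ELocSS
import Fermat.Agent.Ribet.H215.FirstOrder
import Fermat.Agent.Ribet.H215.TwoUnit

/-!
# RIBET / WALL-p / ELOC-ord (good reduction): status of the leaves  (helper375)

* `elocPeu  : ELOCPeuStatement`  — **PEU is closed** (`(K)` helper375, `(F)`, `(U)` helper215).
* `elocSs   : ELOCssStatement`   — adapter of `H187.not_ordinaryInertiaAt_of_ss`.
* `elocOrdGoodIrr_of_line : ELOCLineStatement → ELOCOrdGoodIrrStatement` — only (LINE) is left.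
-/

set_option autoImplicit false

open WeierstrassCurve WeierstrassCurve.Affine WeierstrassCurve.Affine.Point

namespace Fermat.Agent.Ribet.H375

open Fermat.Agent.Ribet.Spec Fermat.Agent.Ribet.H944.Wall
open Fermat.Agent.S05.SameRed (InKer IntegralCoeffs)

/-- **(PEU)**, unconditional. -/
theorem elocPeu : ELOCPeuStatement :=
  elocPeu_of Fermat.Agent.Ribet.H215.firstOrder Fermat.Agent.Ribet.H215.twoUnit

/-- **(ELOC-ss)** in the shape of `ELOCOrdSpec` (proof: helper187). -/
theorem elocSs : ELOCssStatement := by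
  intro W p hΔ hp hp2 _ A hA hall
  refine Fermat.Agent.Ribet.H187.not_ordinaryInertiaAt_of_ss hΔ hp hp2 A hA ?_
  intro P hP0 hPp
  have hmem : P ∈ Submodule.torsionBy ℤ
      ((W.map (Int.castRingHom ℚ))⁄(AlgebraicClosure ℚ)).Point p := by
    rw [Submodule.mem_torsionBy_iff, natCast_zsmul]
    exact hPp
  have h := hall ⟨P, hmem⟩
  unfold InE1 at h
  rcases P with _ | ⟨x, y, hxy⟩
  · exact absurd rfl hP0
  · exact h

/-- **ELOC-ord-good from (LINE) alone.** -/
theorem elocOrdGoodIrr_of_line (hline : ELOCLineStatement) : ELOCOrdGoodIrrStatement :=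
  elocOrdGoodIrr_of elocSs hline elocPeu

/-- The ordinary case of the wall (S40 form) from the filtration package, (LINE) and the landed
`NMT-W`, `NE-W`. -/
theorem ordCaseGood_of_line (hF : AtPFiltrationStatement) (hline : ELOCLineStatement)
    (hNMT : NotMultTypeWStatement) (hNE : NonEisWStatement) : OrdCaseGoodStatement :=
  ordCaseGood_of_irr hF (elocOrdGoodIrr_of_line hline) hNMT hNE

end Fermat.Agent.Ribet.H375
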