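import Fermat.Agent.Ribet.H944.WallSpec
import Fermat.Agent.S05.SameRed

/-!
# Row 38, WALL-p, leaf ELOC-ord (good reduction at `p`): frozen decomposition + proved glue
(sub-architect helper375; wall architect helper944, row-lead helper943)

Target: `ELOCOrdGoodIrrStatement` = `H944.Wall.ELOCOrdGoodStatement` with the (available)
hypothesis `W.ModRepIsIrreducible p` added; `ordCaseGood_of_irr` below is the wall glue for it.

## The elementary proof (no function fields, no formal groups, no finite flat group schemes)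
`E₁` = kernel of reduction at `A` (points with `x ∉ A`), `I` = inertia at `A`,
`I₁ = {τ ∈ I : τ ζ_p = ζ_p}`, `K = ℚ̄^{I₁}`.
* (ss)   `E[p] ⊆ E₁` ⇒ `¬ OrdinaryInertiaAt`  (helper187 / helper515).
* (LINE) otherwise `E₁[p]` is `0` or a line `⟨t⟩`; `σ x - x ∈ E₁[p]` for `σ ∈ I` (reduction is a
  homomorphism, `Lib/Red`; inertia is trivial on residues); `σ t = χ(σ) t` (`det = χ`, `H403`).
* (PEU)  `x ∈ E[p] ∖ E₁`, `τ x = x + c(τ) t` for `τ ∈ I₁`.  Put `γ_j = X(x + j t)`, so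
  `τ γ_j = γ_{j + c(τ)}`, and the Lagrange resolvents `α_i = ∑_j ζ^{-ij} γ_j`, `τ α_i = ζ^{i c(τ)} α_i`,
  `p (γ₁ - γ₀) = ∑_{i ≠ 0} (ζ^i - 1) α_i`.
  (F) FIRST ORDER: `X(x + t) - X(x) = (2y + a₁x + a₃)(x) · z(t) · (1 + O(z(t)))`, `z = -X/Y`, and
  (U) `2y + a₁x + a₃` is a unit at `x` (the reduction of `x` has odd order `p`).
  So `p (γ₁ - γ₀) = b · unit` with `b = p z(t) ∈ K`.  Ultrametric inequality: either one term
  `(ζ^i - 1) α_i` has the valuation of `b`, or two terms have the same valuation; in both cases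
  (K) there is a UNIT `y` with `τ y = ζ^{m c(τ)} y`, `m ≢ 0`; a power of it has `m = 1`.
  `y ^ p ∈ K`, so a `σ` with `PeuFixes` fixes `y`, i.e. `p ∣ c(σ)`, i.e. `σ x = x`.
-/

set_option autoImplicit false
set_option linter.style.haveILetI false

open WeierstrassCurve WeierstrassCurve.Affine WeierstrassCurve.Affine.Point

namespace Fermat.Agent.Ribet.H375

open Fermat.Agent.Ribet.Spec Fermat.Agent.Ribet.H944.Wall
open Fermat.Agent.S05.SameRed (InKer IntegralCoeffs)

/-- `x ∈ E[p]` lies in the kernel of reduction at `A` (for the given Weierstrass equation):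
`x = 0` or the `x`-coordinate is not in `A`. -/
def InE1 (E : WeierstrassCurve ℚ) (p : ℕ) (A : ValuationSubring (AlgebraicClosure ℚ))
    (x : ETorsion E p) : Prop :=
  InKer (E⁄(AlgebraicClosure ℚ)) A.valuation (x : (E⁄(AlgebraicClosure ℚ)).Point)

/-! ## Level 1: `ELOC-ord-good = ss + LINE + PEU` -/

/-- (ELOC-ord, good reduction, irreducible form) = `H944.Wall.ELOCOrdGoodStatement` with the
hypothesis `W.ModRepIsIrreducible p` (available in the wall glue) added. -/
def ELOCOrdGoodIrrStatement : Prop :=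
  ∀ (W : WeierstrassCurve ℤ) (p : ℕ), W.Δ ≠ 0 → p.Prime → p ≠ 2 → W.IsGoodPrimeFor p →
    W.ModRepIsIrreducible p →
    ∀ A : ValuationSubring (AlgebraicClosure ℚ), A.LiesOverPrime p →
    OrdinaryInertiaAt (W.map (Int.castRingHom ℚ)) p A →
    ELOCOrdAt (W.map (Int.castRingHom ℚ)) p A

/-- (ELOC-ss)  supersingular: if all of `E[p]` is in the kernel of reduction, inertia is not
"ordinary".  Owners: helper187, helper515. -/
def ELOCssStatement : Prop :=
  ∀ (W : WeierstrassCurve ℤ) (p : ℕ), W.Δ ≠ 0 → p.Prime → p ≠ 2 → W.IsGoodPrimeFor p →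
    ∀ A : ValuationSubring (AlgebraicClosure ℚ), A.LiesOverPrime p →
    (∀ x : ETorsion (W.map (Int.castRingHom ℚ)) p, InE1 (W.map (Int.castRingHom ℚ)) p A x) →
    ¬ OrdinaryInertiaAt (W.map (Int.castRingHom ℚ)) p A

/-- The data of the line: `t` in the kernel of reduction, inertia acts on `t` through `χ` and
trivially on `E[p]/⟨t⟩`, and `E₁[p] ⊆ ⟨t⟩`. -/
def IsRedLine (E : WeierstrassCurve ℚ) (p : ℕ) (A : ValuationSubring (AlgebraicClosure ℚ))
    (t : ETorsion E p) : Prop :=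
  InE1 E p A t ∧
  (∀ σ ∈ A.inertiaSubgroupIn ℚ, ∀ c : ℕ, CycloAt p σ c → σ • t = c • t) ∧
  (∀ x : ETorsion E p, ∀ σ ∈ A.inertiaSubgroupIn ℚ, ∃ n : ℕ, σ • x = x + n • t) ∧
  (∀ x : ETorsion E p, InE1 E p A x → ∃ n : ℕ, x = n • t)

/-- (LINE)  good reduction, `E[p] ⊄ E₁`, `E[p]` irreducible ⇒ the line exists. -/
def ELOCLineStatement : Prop :=
  ∀ (W : WeierstrassCurve ℤ) (p : ℕ), W.Δ ≠ 0 → p.Prime → p ≠ 2 → W.IsGoodPrimeFor p →
    W.ModRepIsIrreducible p →
    ∀ A : ValuationSubring (AlgebraicClosure ℚ), A.LiesOverPrime p →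
    (∃ x : ETorsion (W.map (Int.castRingHom ℚ)) p, ¬ InE1 (W.map (Int.castRingHom ℚ)) p A x) →
    ∃ t : ETorsion (W.map (Int.castRingHom ℚ)) p, IsRedLine (W.map (Int.castRingHom ℚ)) p A t

/-- (PEU)  good reduction: a point of `E[p]` outside the kernel of reduction is fixed by the
peu ramifiée subgroup of inertia. -/
def ELOCPeuStatement : Prop :=
  ∀ (W : WeierstrassCurve ℤ) (p : ℕ), W.Δ ≠ 0 → p.Prime → p ≠ 2 → W.IsGoodPrimeFor p →
    ∀ A : ValuationSubring (AlgebraicClosure ℚ), A.LiesOverPrime p →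
    ∀ t : ETorsion (W.map (Int.castRingHom ℚ)) p, IsRedLine (W.map (Int.castRingHom ℚ)) p A t →
    ∀ x : ETorsion (W.map (Int.castRingHom ℚ)) p, ¬ InE1 (W.map (Int.castRingHom ℚ)) p A x →
    ∀ σ : GQ, PeuFixes A p σ → σ • x = x

/-- `PeuFixes` elements fix the `p`-th roots of unity. -/
theorem cycloAt_one_of_peuFixes {A : ValuationSubring (AlgebraicClosure ℚ)} {p : ℕ} (hp : 0 < p)
    {σ : GQ} (hσ : PeuFixes A p σ) : CycloAt p σ 1 := by
  intro ζ hζ
  rw [pow_one]
  have hζ0 : ζ ≠ 0 := by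
    rintro rfl
    rw [zero_pow hp.ne'] at hζ
    exact zero_ne_one hζ
  have hζA : ζ ∈ A := by
    have h1 : A.valuation ζ ^ p = 1 := by rw [← map_pow, hζ, map_one]
    have h2 : A.valuation ζ = 1 := (pow_eq_one_iff.mp h1).resolve_right hp.ne'
    exact (A.valuation_le_one_iff ζ).mp h2.le
  have hζA' : ζ⁻¹ ∈ A := by
    have h1 : A.valuation ζ⁻¹ ^ p = 1 := by rw [← map_pow, inv_pow, hζ, inv_one, map_one]
    have h2 : A.valuation ζ⁻¹ = 1 := (pow_eq_one_iff.mp h1).resolve_right hp.ne'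
    exact (A.valuation_le_one_iff ζ⁻¹).mp h2.le
  refine hσ.2 ζ hζA hζA' (fun τ _ _ => ?_)
  rw [hζ, map_one]

/-- **Level 1 glue.** -/
theorem elocOrdGoodIrr_of (hss : ELOCssStatement) (hline : ELOCLineStatement)
    (hpeu : ELOCPeuStatement) : ELOCOrdGoodIrrStatement := by
  intro W p hΔ hp hp2 hgood hirr A hA hord
  by_cases hE1 : ∀ x : ETorsion (W.map (Int.castRingHom ℚ)) p,
      InE1 (W.map (Int.castRingHom ℚ)) p A x
  · exact absurd hord (hss W p hΔ hp hp2 hgood A hA hE1)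
  · have hex : ∃ x : ETorsion (W.map (Int.castRingHom ℚ)) p,
        ¬ InE1 (W.map (Int.castRingHom ℚ)) p A x := by
      by_contra h
      exact hE1 (fun x => by
        by_contra hx
        exact h ⟨x, hx⟩)
    obtain ⟨t, ht⟩ := hline W p hΔ hp hp2 hgood hirr A hA hex
    refine ⟨t, ht.2.1, ht.2.2.1, ?_⟩
    intro x σ hσ
    by_cases hx : InE1 (W.map (Int.castRingHom ℚ)) p A x
    · obtain ⟨n, rfl⟩ := ht.2.2.2 x hx
      have h1 := ht.2.1 σ hσ.1 1 (cycloAt_one_of_peuFixes hp.pos hσ)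
      rw [one_smul] at h1
      rw [smul_comm, h1]
    · exact hpeu W p hΔ hp hp2 hgood A hA t ht x hx σ hσ

/-- **Wall glue with the irreducible form** (same proof as `H944.Wall.ordCaseGood_of`). -/
theorem ordCaseGood_of_irr (hF : AtPFiltrationStatement) (hEL : ELOCOrdGoodIrrStatement)
    (hNMT : NotMultTypeWStatement) (hNE : NonEisWStatement) : OrdCaseGoodStatement := by
  intro W p M' _ _ hΔ hp hp2 hpM' hgood hirr A hA hH S hemb
  obtain ⟨S₀, α, β, hdeg, hA'⟩ := hF p M' hp hp2 hpM'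
  obtain ⟨𝓕, 𝒮, -, h2, h3, h4⟩ := hA' A hA
  exact lowered_of_filtration hdeg h2 h3 h4 (hEL W p hΔ hp hp2 hgood hirr A hA hH)
    (hNMT W p hΔ hp hp2 hirr A hA) (hNE W p hΔ hp hp2 hirr) hemb

/-! ## Level 2: leaves of (PEU)

`PEU ⇐ (K) + (F) + (U)` + the inertia lemmas on main (`Lib/Cheb/H476/FrobConj`,
`S05/AssembleFrey.inertia_res`).  The glue is `Ribet/H375/PeuGlue.lean` (helper375). -/

/-- **(K)** abstract Kummer-unit lemma (Mathlib only).  A group `G` acts on a field `L` preserving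
a valuation ring `A` and fixing a primitive `p`-th root of unity `ζ`; `γ : ℤ/p → L` is permuted
through `c : G → ℤ/p`; `γ 1 - γ 0` has the valuation of a `G`-fixed element `b`.  Then there is a
unit `y` of `A` with `τ y = ζ ^ c(τ) · y` for all `τ`.
[Lagrange resolvents `α_i = ∑_j ζ^{-ij} γ_j`; `p (γ 1 - γ 0) = ∑_{i ≠ 0} (ζ^i - 1) α_i`; ultrametric
inequality: one term has the valuation of `p b`, or two terms have equal valuation.] -/
def KummerUnitStatement : Prop :=
  ∀ (L : Type) [Field L] (A : ValuationSubring L) (G : Type) [Group G] [MulSemiringAction G L]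
    (p : ℕ), p.Prime → (p : L) ≠ 0 →
    (∀ (τ : G) (a : L), a ∈ A → τ • a ∈ A) →
    ∀ ζ : L, IsPrimitiveRoot ζ p → (∀ τ : G, τ • ζ = ζ) →
    ∀ (c : G → ZMod p) (γ : ZMod p → L), (∀ (τ : G) (j : ZMod p), τ • γ j = γ (j + c τ)) →
    ∀ b : L, (∀ τ : G, τ • b = b) → b ≠ 0 → A.valuation ((γ 1 - γ 0) / b) = 1 →
    ∃ y : L, y ∈ A ∧ y⁻¹ ∈ A ∧ ∀ τ : G, τ • y = ζ ^ (c τ).val * y

/-- **(F)** first-order expansion of the addition law at the origin.  `W` with integral
coefficients, `P = (x, y)` integral with `2y + a₁x + a₃` a unit, `T = (X, Y)` in the kernel of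
reduction.  Then `P + T = (x₃, y₃)` is integral and `(x₃ - x) / z(T)` is a unit, `z(T) = -X / Y`.
[Exact identity `(x₃ - x)(X - x)² = -Y(2y + a₁x + a₃) + X(3x² + 2a₂x + a₄ - a₁y) + (…)`.] -/
def FirstOrderStatement : Prop :=
  ∀ (K : Type) [Field K] [DecidableEq K] (A : ValuationSubring K) (W : Affine K),
    IntegralCoeffs W A.valuation →
    ∀ (x y X Y : K) (h : W.Nonsingular x y) (hT : W.Nonsingular X Y), x ∈ A → X ∉ A →
    A.valuation (2 * y + W.a₁ * x + W.a₃) = 1 →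
    ∃ (x₃ y₃ : K) (h₃ : W.Nonsingular x₃ y₃),
      Point.some x y h + Point.some X Y hT = Point.some x₃ y₃ h₃ ∧
      x₃ ∈ A ∧ A.valuation ((x₃ - x) * Y / X) = 1

/-- **(U)** good reduction at the odd prime `p`: at a point of order `p` outside the kernel of
reduction, `2y + a₁x + a₃` is a unit (its reduction has odd order, so it is not `2`-torsion).
[`Lib/Red`: the reduction homomorphism.] -/
def TwoUnitStatement : Prop :=
  ∀ (W : WeierstrassCurve ℤ) (p : ℕ), W.Δ ≠ 0 → p.Prime → p ≠ 2 → W.IsGoodPrimeFor p →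
    ∀ A : ValuationSubring (AlgebraicClosure ℚ), A.LiesOverPrime p →
    ∀ (x y : AlgebraicClosure ℚ)
      (h : ((W.map (Int.castRingHom ℚ))⁄(AlgebraicClosure ℚ)).Nonsingular x y),
      p • (Point.some x y h) = 0 → x ∈ A →
      A.valuation (2 * y + ((W.map (Int.castRingHom ℚ))⁄(AlgebraicClosure ℚ)).a₁ * x +
        ((W.map (Int.castRingHom ℚ))⁄(AlgebraicClosure ℚ)).a₃) = 1

/-- The glue `(K) + (F) + (U) ⇒ (PEU)`, as a statement (proved in `PeuGlue.lean`). -/
def PeuGlueStatement : Prop :=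
  KummerUnitStatement → FirstOrderStatement → TwoUnitStatement → ELOCPeuStatement

end Fermat.Agent.Ribet.H375
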