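import Mathlib.RingTheory.Valuation.ValuationSubring
import Mathlib.RingTheory.RootsOfUnity.PrimitiveRoots
import Mathlib.Data.ZMod.Basic
import Mathlib.Algebra.Field.ZMod
import Mathlib.Algebra.Ring.Action.Basic
import Mathlib.Tactic.FieldSimp
import Mathlib.Tactic.Ring
import Mathlib.Tactic.LinearCombination

/-!
# RIBET / WALL-p / ELOC-ord, leaf (K): the Kummer-unit lemma  (helper375; Mathlib only)

A group `G` acts on a field `L` and fixes a primitive `p`-th root of unity `ζ`; a family
`γ : ℤ/p → L` is permuted through `c : G → ℤ/p` (`τ γ_j = γ_{j + c τ}`), and `γ 1 - γ 0` has the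
valuation of a `G`-fixed element `b`.  Then there is a unit `y` with `τ y = ζ ^ c(τ) · y`.

Proof: Lagrange resolvents `α_i = ∑_j ζ^{-ij} γ_j`, `τ α_i = ζ^{i c τ} α_i`, and
`∑_i (ζ^i - 1) α_i = p (γ 1 - γ 0)`.  By the ultrametric inequality either one term has the
valuation of `p b` or two distinct terms have the same valuation; the quotient is a unit with
character `m c`, `m ≠ 0`, and a power of it has character `c`.
-/

set_option autoImplicit false
set_option linter.unusedSectionVars false
set_option linter.style.haveILetI false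

namespace Fermat.Agent.Ribet.H375

open Finset

section Char

variable {L : Type*} [Field L] {p : ℕ} [Fact p.Prime] {ζ : L}

/-- the character `j ↦ ζ ^ j` of `ℤ/p` -/
def kChar (ζ : L) (j : ZMod p) : L := ζ ^ j.val

lemma kChar_zero : kChar (p := p) ζ 0 = 1 := by
  simp [kChar]

lemma kChar_add (hζ : ζ ^ p = 1) (a b : ZMod p) :
    kChar ζ (a + b) = kChar ζ a * kChar ζ b := by
  unfold kChar
  rw [ZMod.val_add, ← pow_add, ← pow_eq_pow_mod _ hζ]

lemma kChar_mul (hζ : ζ ^ p = 1) (a b : ZMod p) :
    kChar ζ (a * b) = kChar ζ b ^ a.val := by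
  unfold kChar
  rw [ZMod.val_mul, ← pow_mul, ← pow_eq_pow_mod _ hζ, mul_comm]

lemma kChar_ne_zero (hζ : ζ ^ p = 1) (a : ZMod p) : kChar ζ a ≠ 0 := by
  unfold kChar
  apply pow_ne_zero
  rintro rfl
  have hp : p ≠ 0 := (Fact.out : p.Prime).ne_zero
  rw [zero_pow hp] at hζ
  exact zero_ne_one hζ

lemma kChar_eq_one_iff (hζ : IsPrimitiveRoot ζ p) (a : ZMod p) : kChar ζ a = 1 ↔ a = 0 := by
  unfold kChar
  rw [hζ.pow_eq_one_iff_dvd]
  constructor
  · intro h
    have hlt : a.val < p := ZMod.val_lt a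
    have h0 : a.val = 0 := Nat.eq_zero_of_dvd_of_lt h hlt
    exact (ZMod.val_eq_zero a).mp h0
  · rintro rfl
    simp

lemma kChar_sum_mul (hζ : IsPrimitiveRoot ζ p) (m : ZMod p) :
    ∑ i : ZMod p, kChar ζ (i * m) = if m = 0 then (p : L) else 0 := by
  have h1 : ζ ^ p = 1 := hζ.pow_eq_one
  split_ifs with hm
  · subst hm
    simp [kChar_zero, ZMod.card]
  · have hsh : ∑ i : ZMod p, kChar ζ ((i + 1) * m) = ∑ i : ZMod p, kChar ζ (i * m) :=
      Equiv.sum_comp (Equiv.addRight (1 : ZMod p)) (fun i => kChar ζ (i * m))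
    have hmul : ∑ i : ZMod p, kChar ζ ((i + 1) * m) =
        kChar ζ m * ∑ i : ZMod p, kChar ζ (i * m) := by
      rw [Finset.mul_sum]
      refine Finset.sum_congr rfl (fun i _ => ?_)
      rw [add_mul, one_mul, kChar_add h1, mul_comm]
    have hne : kChar ζ m - 1 ≠ 0 := by
      rw [sub_ne_zero]
      exact fun h => hm ((kChar_eq_one_iff hζ m).mp h)
    have h0 : (kChar ζ m - 1) * ∑ i : ZMod p, kChar ζ (i * m) = 0 := by
      rw [sub_mul, one_mul, ← hmul, hsh, sub_self]
    exact (mul_eq_zero.mp h0).resolve_left hne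

end Char

section Main

variable {L : Type*} [Field L] (A : ValuationSubring L) {G : Type*} [Group G]
  [MulSemiringAction G L]

/-- **(K)** the Kummer-unit lemma. -/
theorem kummer_unit (p : ℕ) (hp : p.Prime) (hpL : (p : L) ≠ 0)
    (ζ : L) (hζ : IsPrimitiveRoot ζ p) (hζG : ∀ τ : G, τ • ζ = ζ)
    (c : G → ZMod p) (γ : ZMod p → L) (hγ : ∀ (τ : G) (j : ZMod p), τ • γ j = γ (j + c τ))
    (b : L) (hb : ∀ τ : G, τ • b = b) (hb0 : b ≠ 0)
    (hval : A.valuation ((γ 1 - γ 0) / b) = 1) :
    ∃ y : L, y ≠ 0 ∧ y ∈ A ∧ y⁻¹ ∈ A ∧ ∀ τ : G, τ • y = ζ ^ (c τ).val * y := by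
  classical
  haveI : Fact p.Prime := ⟨hp⟩
  have h1 : ζ ^ p = 1 := hζ.pow_eq_one
  have hGe : ∀ (τ : G) (j : ZMod p), τ • kChar ζ j = kChar ζ j := by
    intro τ j
    unfold kChar
    rw [smul_pow', hζG]
  -- resolvents
  set α : ZMod p → L := fun i => ∑ j : ZMod p, kChar ζ (-(i * j)) * γ j with hα
  have hατ : ∀ (τ : G) (i : ZMod p), τ • α i = kChar ζ (i * c τ) * α i := by
    intro τ i
    simp only [hα]
    rw [Finset.smul_sum, Finset.mul_sum]
    rw [← Equiv.sum_comp (Equiv.addRight (c τ))
      (fun j => kChar ζ (i * c τ) * (kChar ζ (-(i * j)) * γ j))]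
    refine Finset.sum_congr rfl (fun j _ => ?_)
    rw [smul_mul', hGe, hγ, Equiv.coe_addRight, ← mul_assoc, ← kChar_add h1]
    congr 2
    ring
  -- the terms
  set a : ZMod p → L := fun i => (kChar ζ i - 1) * α i with ha
  have haτ : ∀ (τ : G) (i : ZMod p), τ • a i = kChar ζ (i * c τ) * a i := by
    intro τ i
    simp only [ha]
    rw [smul_mul', smul_sub, hGe, smul_one, hατ]
    ring
  have ha0 : a 0 = 0 := by
    simp only [ha, kChar_zero, sub_self, zero_mul]
  have hsum : ∑ i : ZMod p, a i = (p : L) * (γ 1 - γ 0) := by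
    simp only [ha, hα]
    simp_rw [Finset.mul_sum]
    rw [Finset.sum_comm]
    have hj : ∀ j : ZMod p, ∑ i : ZMod p, (kChar ζ i - 1) * (kChar ζ (-(i * j)) * γ j) =
        ((if 1 - j = 0 then (p : L) else 0) - (if -j = 0 then (p : L) else 0)) * γ j := by
      intro j
      rw [← kChar_sum_mul hζ (1 - j), ← kChar_sum_mul hζ (-j), ← Finset.sum_sub_distrib,
        Finset.sum_mul]
      refine Finset.sum_congr rfl (fun i _ => ?_)
      have e1 : kChar ζ (i * (1 - j)) = kChar ζ i * kChar ζ (-(i * j)) := by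
        rw [← kChar_add h1]
        congr 1
        ring
      have e2 : kChar ζ (i * -j) = kChar ζ (-(i * j)) := by
        congr 1
        ring
      rw [e1, e2]
      ring
    rw [Finset.sum_congr rfl (fun j _ => hj j)]
    simp_rw [sub_mul]
    rw [Finset.sum_sub_distrib]
    have s1 : ∑ j : ZMod p, (if 1 - j = 0 then (p : L) else 0) * γ j = (p : L) * γ 1 := by
      rw [Finset.sum_eq_single (1 : ZMod p)]
      · simp
      · intro j _ hj1
        have : 1 - j ≠ 0 := by
          rw [sub_ne_zero]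
          exact fun h => hj1 h.symm
        simp [this]
      · intro h
        exact absurd (Finset.mem_univ _) h
    have s0 : ∑ j : ZMod p, (if -j = 0 then (p : L) else 0) * γ j = (p : L) * γ 0 := by
      rw [Finset.sum_eq_single (0 : ZMod p)]
      · simp
      · intro j _ hj0
        have : -j ≠ 0 := neg_ne_zero.mpr hj0
        simp [this]
      · intro h
        exact absurd (Finset.mem_univ _) h
    rw [s1, s0]
    ring
  -- a unit with a nontrivial character
  have hkey : ∃ (u : L) (m : ZMod p), m ≠ 0 ∧ A.valuation u = 1 ∧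
      ∀ τ : G, τ • u = kChar ζ (m * c τ) * u := by
    set s : L := (p : L) * (γ 1 - γ 0) with hs
    have hpb : (p : L) * b ≠ 0 := mul_ne_zero hpL hb0
    have hs_val : A.valuation s = A.valuation ((p : L) * b) := by
      have : s = ((γ 1 - γ 0) / b) * ((p : L) * b) := by
        rw [hs]
        field_simp
      rw [this, map_mul, hval, one_mul]
    have hs0 : s ≠ 0 := by
      intro h0
      rw [h0, map_zero] at hs_val
      exact hpb ((map_eq_zero _).mp hs_val.symm)
    set T : Finset (ZMod p) := Finset.univ.filter (fun i => a i ≠ 0) with hT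
    have hTne : T.Nonempty := by
      by_contra hempty
      rw [Finset.not_nonempty_iff_eq_empty] at hempty
      apply hs0
      rw [← hsum]
      refine Finset.sum_eq_zero (fun i _ => ?_)
      by_contra hi
      have : i ∈ T := by
        rw [hT, Finset.mem_filter]
        exact ⟨Finset.mem_univ _, hi⟩
      rw [hempty] at this
      exact absurd this (Finset.notMem_empty _)
    obtain ⟨i₁, hi₁T, hmax⟩ := Finset.exists_max_image T (fun i => A.valuation (a i)) hTne
    have hai₁ : a i₁ ≠ 0 := by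
      rw [hT, Finset.mem_filter] at hi₁T
      exact hi₁T.2
    have hi₁0 : i₁ ≠ 0 := by
      rintro rfl
      exact hai₁ ha0
    by_cases hB : ∃ i₂ ∈ T, i₂ ≠ i₁ ∧ A.valuation (a i₂) = A.valuation (a i₁)
    · obtain ⟨i₂, hi₂T, hne, hveq⟩ := hB
      have hai₂ : a i₂ ≠ 0 := by
        rw [hT, Finset.mem_filter] at hi₂T
        exact hi₂T.2
      refine ⟨a i₁ / a i₂, i₁ - i₂, sub_ne_zero.mpr (Ne.symm hne), ?_, ?_⟩
      · rw [map_div₀, hveq]
        exact div_self ((map_ne_zero _).mpr hai₁)
      · intro τ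
        rw [smul_div₀', haτ, haτ]
        have hc2 : kChar ζ (i₂ * c τ) ≠ 0 := kChar_ne_zero h1 _
        have e : kChar ζ (i₁ * c τ) = kChar ζ ((i₁ - i₂) * c τ) * kChar ζ (i₂ * c τ) := by
          rw [← kChar_add h1]
          congr 1
          ring
        rw [e]
        field_simp
    · have hlt : ∀ i ∈ (Finset.univ.erase i₁ : Finset (ZMod p)),
          A.valuation (a i) < A.valuation (a i₁) := by
        intro i hi
        have hine : i ≠ i₁ := (Finset.mem_erase.mp hi).1
        by_cases hai : a i = 0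
        · rw [hai, map_zero]
          exact zero_lt_iff.mpr ((map_ne_zero _).mpr hai₁)
        · have hiT : i ∈ T := by
            rw [hT, Finset.mem_filter]
            exact ⟨Finset.mem_univ _, hai⟩
          refine lt_of_le_of_ne (hmax i hiT) (fun heq => hB ⟨i, hiT, hine, heq⟩)
      have hrest : A.valuation (∑ i ∈ (Finset.univ.erase i₁ : Finset (ZMod p)), a i)
          < A.valuation (a i₁) :=
        Valuation.map_sum_lt _ ((map_ne_zero _).mpr hai₁) hlt
      have hsplit : s = a i₁ + ∑ i ∈ (Finset.univ.erase i₁ : Finset (ZMod p)), a i := by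
        rw [← hsum, Finset.add_sum_erase _ _ (Finset.mem_univ i₁)]
      have hvs : A.valuation s = A.valuation (a i₁) := by
        rw [hsplit]
        exact Valuation.map_add_eq_of_lt_left _ hrest
      refine ⟨a i₁ / ((p : L) * b), i₁, hi₁0, ?_, ?_⟩
      · rw [map_div₀, ← hvs, hs_val]
        exact div_self ((map_ne_zero _).mpr hpb)
      · intro τ
        have hpτ : τ • (p : L) = (p : L) :=
          map_natCast (MulSemiringAction.toRingHom G L τ) p
        rw [smul_div₀', haτ, smul_mul', hb, hpτ]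
        ring
  obtain ⟨u, m, hm, hu, huτ⟩ := hkey
  have hu0 : u ≠ 0 := by
    rintro rfl
    rw [map_zero] at hu
    exact zero_ne_one hu
  refine ⟨u ^ (m⁻¹).val, pow_ne_zero _ hu0, ?_, ?_, ?_⟩
  · rw [← A.valuation_le_one_iff, map_pow, hu, one_pow]
  · rw [← A.valuation_le_one_iff, map_inv₀, map_pow, hu, one_pow, inv_one]
  · intro τ
    rw [smul_pow', huτ, mul_pow, ← kChar_mul h1]
    have : m⁻¹ * (m * c τ) = c τ := by
      rw [← mul_assoc, inv_mul_cancel₀ hm, one_mul]
    rw [this]
    rfl

end Main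

end Fermat.Agent.Ribet.H375
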