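import Fermat.Agent.Ribet.H375.ELOCOrdSpec
import Fermat.Agent.Ribet.H375.KummerUnit
import Fermat.Agent.S05.GoodRed
import Fermat.Agent.S59.H899.ZModel
import Fermat.Agent.Lib.Cheb.H476.FrobConj
import Fermat.Agent.S55.H414.CycloLevel

/-!
# RIBET / WALL-p / ELOC-ord: the glue `(K) + (F) + (U) ⇒ (PEU)`  (helper375)

See the header of `ELOCOrdSpec.lean`.  `(K)` is `kummer_unit` (proved, `KummerUnit.lean`).
-/

set_option autoImplicit false
set_option linter.style.haveILetI false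
set_option linter.unusedSectionVars false

open WeierstrassCurve WeierstrassCurve.Affine WeierstrassCurve.Affine.Point

namespace Fermat.Agent.Ribet.H375

open Fermat.Agent.Ribet.Spec Fermat.Agent.Ribet.H944.Wall
open Fermat.Agent.S05.SameRed (InKer IntegralCoeffs)

/-- **(K)** in the frozen form. -/
theorem kummerUnitStatement : KummerUnitStatement := by
  intro L _ A G _ _ p hp hpL _ ζ hζ hζG c γ hγ b hb hb0 hval
  obtain ⟨y, -, h⟩ := kummer_unit A p hp hpL ζ hζ hζG c γ hγ b hb hb0 hval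
  exact ⟨y, h⟩

/-- the `x`-coordinate of a point (`0` at infinity) -/
noncomputable def xc {E : WeierstrassCurve ℚ} :
    (E⁄(AlgebraicClosure ℚ)).Point → AlgebraicClosure ℚ
  | .zero => 0
  | .some x _ _ => x

lemma xc_smul {E : WeierstrassCurve ℚ} (σ : GQ) (P : (E⁄(AlgebraicClosure ℚ)).Point) :
    xc (σ • P) = σ (xc P) := by
  rcases P with _ | ⟨x, y, h⟩
  · show (0 : AlgebraicClosure ℚ) = σ 0
    rw [_root_.map_zero]
  · rfl

/-- the subgroup of inertia fixing the `p`-th roots of unity -/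
def inertiaOne (A : ValuationSubring (AlgebraicClosure ℚ)) (p : ℕ) : Subgroup GQ where
  carrier := {τ | τ ∈ A.inertiaSubgroupIn ℚ ∧ CycloAt p τ 1}
  mul_mem' := by
    rintro τ τ' ⟨h1, h2⟩ ⟨h1', h2'⟩
    refine ⟨mul_mem h1 h1', fun ζ hζ => ?_⟩
    have e1 := h2' ζ hζ
    have e2 := h2 ζ hζ
    rw [pow_one] at e1 e2 ⊢
    show τ (τ' ζ) = ζ
    rw [e1, e2]
  one_mem' := ⟨one_mem _, fun ζ _ => by rw [pow_one]; rfl⟩
  inv_mem' := by
    rintro τ ⟨h1, h2⟩
    refine ⟨inv_mem h1, fun ζ hζ => ?_⟩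
    have e2 := h2 ζ hζ
    rw [pow_one] at e2 ⊢
    calc τ⁻¹ ζ = τ⁻¹ (τ ζ) := by rw [e2]
      _ = ζ := by
        show (τ⁻¹ * τ) ζ = ζ
        rw [inv_mul_cancel]
        rfl

lemma inertiaOne_smul (A : ValuationSubring (AlgebraicClosure ℚ)) (p : ℕ)
    (τ : inertiaOne A p) (a : AlgebraicClosure ℚ) : τ • a = (τ : GQ) a := rfl

/-- **The glue**: `(F) + (U) ⇒ (PEU)`  (with `(K)` proved). -/
theorem elocPeu_of (hF : FirstOrderStatement) (hU : TwoUnitStatement) : ELOCPeuStatement := by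
  intro W p hΔ hp hp2 hgood A hA t ht x hx σ hσ
  haveI : Fact p.Prime := ⟨hp⟩
  haveI : NeZero p := ⟨hp.ne_zero⟩
  obtain ⟨htE1, hta, htb, -⟩ := ht
  have hσ1 : CycloAt p σ 1 := cycloAt_one_of_peuFixes hp.pos hσ
  -- torsion
  have hpt : p • (t : ((W.map (Int.castRingHom ℚ))⁄(AlgebraicClosure ℚ)).Point) = 0 := by
    have := nsmul_torsion_eq_zero t
    exact congrArg Subtype.val this
  have hpx : p • (x : ((W.map (Int.castRingHom ℚ))⁄(AlgebraicClosure ℚ)).Point) = 0 := by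
    have := nsmul_torsion_eq_zero x
    exact congrArg Subtype.val this
  -- the point `t`
  rcases ht' : (t : ((W.map (Int.castRingHom ℚ))⁄(AlgebraicClosure ℚ)).Point)
    with _ | ⟨X, Y, hT⟩
  · -- `t = 0`
    have ht0 : t = 0 := Subtype.ext ht'
    obtain ⟨n, hn⟩ := htb x σ hσ.1
    rw [hn, ht0, smul_zero, add_zero]
  -- the point `x`
  rcases hx' : (x : ((W.map (Int.castRingHom ℚ))⁄(AlgebraicClosure ℚ)).Point)
    with _ | ⟨x0, y0, h0⟩
  · exfalso
    apply hx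
    unfold InE1
    rw [hx']
    trivial
  have hXA : X ∉ A := by
    have h1 : InKer _ A.valuation (t : ((W.map (Int.castRingHom ℚ))⁄(AlgebraicClosure ℚ)).Point) :=
      htE1
    rw [ht'] at h1
    have h2 : 1 < A.valuation X := h1
    intro hXmem
    exact absurd ((A.valuation_le_one_iff X).mpr hXmem) (not_le.mpr h2)
  have hx0A : x0 ∈ A := by
    have h1 : ¬ InKer _ A.valuation
        (x : ((W.map (Int.castRingHom ℚ))⁄(AlgebraicClosure ℚ)).Point) := hx
    rw [hx'] at h1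
    have h2 : ¬ 1 < A.valuation x0 := h1
    exact (A.valuation_le_one_iff x0).mp (not_lt.mp h2)
  have hX0 : X ≠ 0 := by
    rintro rfl
    exact hXA (zero_mem A)
  -- (U) and (F)
  have hpx' : p • (Point.some x0 y0 h0) = 0 := by rw [← hx']; exact hpx
  have hunit := hU W p hΔ hp hp2 hgood A hA x0 y0 h0 hpx' hx0A
  obtain ⟨x₃, y₃, h₃, hadd, -, hval₃⟩ :=
    hF (AlgebraicClosure ℚ) A _ (Fermat.Agent.S59.H899.integralCoeffs W A) x0 y0 X Y h0 hT
      hx0A hXA hunit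
  have hY0 : Y ≠ 0 := by
    rintro rfl
    rw [mul_zero, zero_div, _root_.map_zero] at hval₃
    exact zero_ne_one hval₃
  -- elements of `inertiaOne` fix `t`
  have hτt : ∀ τ : inertiaOne A p, (τ : GQ) • t = t := by
    intro τ
    have := hta τ.1 τ.2.1 1 τ.2.2
    rwa [one_smul] at this
  have hτXY : ∀ τ : inertiaOne A p, (τ : GQ) X = X ∧ (τ : GQ) Y = Y := by
    intro τ
    have h1 : (τ : GQ) • (t : ((W.map (Int.castRingHom ℚ))⁄(AlgebraicClosure ℚ)).Point) = t :=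
      congrArg Subtype.val (hτt τ)
    rw [ht', Fermat.Agent.S05.GoodRed.smul_some] at h1
    have h2 := Point.some.inj h1
    exact h2
  -- the cocycle
  have hex : ∀ τ : inertiaOne A p, ∃ n : ℕ, (τ : GQ) • x = x + n • t :=
    fun τ => htb x τ.1 τ.2.1
  choose n hn using hex
  set c : inertiaOne A p → ZMod p := fun τ => (n τ : ZMod p) with hc
  have hn' : ∀ τ : inertiaOne A p,
      (τ : GQ) • (x : ((W.map (Int.castRingHom ℚ))⁄(AlgebraicClosure ℚ)).Point)
        = x + n τ • (t : ((W.map (Int.castRingHom ℚ))⁄(AlgebraicClosure ℚ)).Point) := by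
    intro τ
    calc (τ : GQ) • (x : ((W.map (Int.castRingHom ℚ))⁄(AlgebraicClosure ℚ)).Point)
        = (((τ : GQ) • x : ETorsion (W.map (Int.castRingHom ℚ)) p) :
            ((W.map (Int.castRingHom ℚ))⁄(AlgebraicClosure ℚ)).Point) := rfl
      _ = ((x + n τ • t : ETorsion (W.map (Int.castRingHom ℚ)) p) :
            ((W.map (Int.castRingHom ℚ))⁄(AlgebraicClosure ℚ)).Point) := by rw [hn τ]
      _ = _ := by
        rw [Submodule.coe_add, AddSubmonoidClass.coe_nsmul]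
  -- the family `γ`
  set γ : ZMod p → AlgebraicClosure ℚ := fun j =>
    xc ((x : ((W.map (Int.castRingHom ℚ))⁄(AlgebraicClosure ℚ)).Point) +
      j.val • (t : ((W.map (Int.castRingHom ℚ))⁄(AlgebraicClosure ℚ)).Point)) with hγdef
  have hγ : ∀ (τ : inertiaOne A p) (j : ZMod p), τ • γ j = γ (j + c τ) := by
    intro τ j
    rw [inertiaOne_smul]
    simp only [hγdef, hc]
    rw [← xc_smul]
    have hsa := smul_add (τ : GQ) (x : ((W.map (Int.castRingHom ℚ))⁄(AlgebraicClosure ℚ)).Point)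
      (j.val • (t : ((W.map (Int.castRingHom ℚ))⁄(AlgebraicClosure ℚ)).Point))
    rw [hsa, hn' τ]
    have h1 : (τ : GQ) • (j.val • (t : ((W.map (Int.castRingHom ℚ))⁄(AlgebraicClosure ℚ)).Point))
        = j.val • t := by
      rw [← natCast_zsmul, Point.algEquiv_smul_zsmul]
      have : (τ : GQ) • (t : ((W.map (Int.castRingHom ℚ))⁄(AlgebraicClosure ℚ)).Point) = t :=
        congrArg Subtype.val (hτt τ)
      rw [this]
    rw [h1]
    congr 1
    rw [add_assoc]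
    congr 1
    rw [← add_nsmul, ZMod.val_add, ZMod.val_natCast, ← nsmul_eq_mod_nsmul _ hpt,
      nsmul_eq_mod_nsmul (n τ + j.val) hpt, nsmul_eq_mod_nsmul (j.val + n τ % p) hpt]
    congr 1
    rw [Nat.add_mod (n τ) j.val p, Nat.add_mod j.val (n τ % p) p, Nat.mod_mod, add_comm]
  -- the primitive root
  have hpQ : ((p : ℕ) : AlgebraicClosure ℚ) ≠ 0 := Nat.cast_ne_zero.mpr hp.ne_zero
  set ζ : AlgebraicClosure ℚ := Fermat.Agent.S55.H414.zetaBar p with hζdef
  have hζ : IsPrimitiveRoot ζ p := Fermat.Agent.S55.H414.zetaBar_spec p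
  have hζG : ∀ τ : inertiaOne A p, τ • ζ = ζ := by
    intro τ
    rw [inertiaOne_smul]
    have := τ.2.2 ζ hζ.pow_eq_one
    rwa [pow_one] at this
  -- the fixed element `b = X / Y`
  have hb : ∀ τ : inertiaOne A p, τ • (X / Y) = X / Y := by
    intro τ
    rw [inertiaOne_smul, map_div₀, (hτXY τ).1, (hτXY τ).2]
  have hb0 : X / Y ≠ 0 := div_ne_zero hX0 hY0
  have hγ0 : γ 0 = x0 := by
    simp only [hγdef]
    rw [ZMod.val_zero, zero_nsmul, add_zero, hx']
    rfl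
  have hγ1 : γ 1 = x₃ := by
    simp only [hγdef]
    haveI : Fact (1 < p) := ⟨hp.one_lt⟩
    rw [ZMod.val_one, one_nsmul, hx', ht', hadd]
    rfl
  have hval : A.valuation ((γ 1 - γ 0) / (X / Y)) = 1 := by
    rw [hγ0, hγ1]
    have : (x₃ - x0) / (X / Y) = (x₃ - x0) * Y / X := by
      field_simp
    rw [this]
    exact hval₃
  obtain ⟨y, hy0, hyA, hyA', hyτ⟩ :=
    kummer_unit A (G := inertiaOne A p) p hp hpQ ζ hζ hζG c γ hγ (X / Y) hb hb0 hval
  -- `σ` fixes `y`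
  have hσy : σ y = y := by
    refine hσ.2 y hyA hyA' (fun τ hτ hτ1 => ?_)
    have hmem : τ ∈ inertiaOne A p := ⟨hτ, hτ1⟩
    have h1 := hyτ ⟨τ, hmem⟩
    rw [inertiaOne_smul] at h1
    have h2 : τ y = ζ ^ (c ⟨τ, hmem⟩).val * y := h1
    rw [map_pow, h2, mul_pow, ← pow_mul, mul_comm _ p, pow_mul, hζ.pow_eq_one, one_pow, one_mul]
  have hσmem : σ ∈ inertiaOne A p := ⟨hσ.1, hσ1⟩
  have h3 := hyτ ⟨σ, hσmem⟩
  rw [inertiaOne_smul] at h3
  have h4 : σ y = ζ ^ (c ⟨σ, hσmem⟩).val * y := h3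
  rw [hσy] at h4
  have h5 : ζ ^ (c ⟨σ, hσmem⟩).val = 1 := by
    have : (1 : AlgebraicClosure ℚ) * y = ζ ^ (c ⟨σ, hσmem⟩).val * y := by
      rw [one_mul]
      exact h4
    exact (mul_right_cancel₀ hy0 this).symm
  have h6 : c ⟨σ, hσmem⟩ = 0 := (kChar_eq_one_iff hζ _).mp h5
  have h7 : (n ⟨σ, hσmem⟩ : ZMod p) = 0 := h6
  have h8 : p ∣ n ⟨σ, hσmem⟩ := (ZMod.natCast_eq_zero_iff _ _).mp h7
  have h10 : (σ : GQ) • x = x + n ⟨σ, hσmem⟩ • t := hn ⟨σ, hσmem⟩
  rw [h10]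
  obtain ⟨k, hk⟩ := h8
  rw [hk, mul_nsmul, nsmul_torsion_eq_zero, smul_zero, add_zero]

end Fermat.Agent.Ribet.H375
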